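import Mathlib

/-!
# `S ⧸ ⨅ I_n` is the inverse limit of the `S ⧸ I_n` (adically precomplete `S`)

Pure commutative algebra used for subtask `D:U1 exists_unique_lim` of the S53 abstract core.
-/

set_option autoImplicit false

namespace Fermat.Agent.S53.H841

/-- Let `S` be `𝔪`-adically precomplete and `I : ℕ → Ideal S` an antitone tower with
`(⨅ j, I j) ⊔ 𝔪 ^ n = I n`.  Then every compatible family in `∏ S ⧸ I n` comes from a unique
element of `S ⧸ ⨅ j, I j`. -/
theorem exists_unique_lim_of_tower {S : Type*} [CommRing S] (𝔪 : Ideal S) [IsPrecomplete 𝔪 S]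
    (I : ℕ → Ideal S) (hanti : Antitone I)
    (htower : ∀ n, (⨅ j, I j) ⊔ 𝔪 ^ n = I n)
    (y : ∀ n, S ⧸ I n)
    (hy : ∀ n, Ideal.Quotient.factor (hanti (Nat.le_succ n)) (y (n + 1)) = y n) :
    ∃! r : S ⧸ (⨅ j, I j), ∀ n, Ideal.Quotient.factor (iInf_le I n) r = y n := by
  -- lifts of the `y n`
  have hsurj : ∀ n, ∃ s : S, Ideal.Quotient.mk (I n) s = y n :=
    fun n => Ideal.Quotient.mk_surjective (y n)
  choose s hs using hsurj
  have hdiff : ∀ n, s (n + 1) - s n ∈ I n := by
    intro n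
    rw [← Ideal.Quotient.eq, hs n, ← hy n, ← hs (n + 1), Ideal.Quotient.factor_mk]
  have hdec : ∀ n, ∃ k ∈ (⨅ j, I j), s (n + 1) - s n - k ∈ 𝔪 ^ n := by
    intro n
    have h := hdiff n
    rw [← htower n] at h
    obtain ⟨a, ha, b, hb, hab⟩ := Submodule.mem_sup.mp h
    exact ⟨a, ha, by rw [← hab, add_sub_cancel_left]; exact hb⟩
  choose k hk1 hk2 using hdec
  -- corrected lifts, Cauchy for the `𝔪`-adic topology
  let t : ℕ → S := fun n => s n - ∑ i ∈ Finset.range n, k i
  have ht : ∀ n, t (n + 1) - t n ∈ 𝔪 ^ n := by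
    intro n
    have : t (n + 1) - t n = s (n + 1) - s n - k n := by
      simp only [t, Finset.sum_range_succ]; ring
    rw [this]; exact hk2 n
  have httel : ∀ a b, a ≤ b → t b - t a ∈ 𝔪 ^ a := by
    intro a b hab
    induction b, hab using Nat.le_induction with
    | base => simp
    | succ b hab ih =>
      have h1 : t (b + 1) - t a = (t (b + 1) - t b) + (t b - t a) := by ring
      rw [h1]
      exact Ideal.add_mem _ (Ideal.pow_le_pow_right hab (ht b)) ih
  obtain ⟨L, hL⟩ := IsPrecomplete.prec' (I := 𝔪) t (by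
    intro a b hab
    rw [SModEq.sub_mem, smul_eq_mul, Ideal.mul_top]
    have h2 : t a - t b = -(t b - t a) := by ring
    rw [h2]; exact neg_mem (httel a b hab))
  have hL' : ∀ n, t n - L ∈ 𝔪 ^ n := by
    intro n
    have := hL n
    rwa [SModEq.sub_mem, smul_eq_mul, Ideal.mul_top] at this
  have hm : ∀ n, 𝔪 ^ n ≤ I n := fun n => (htower n) ▸ le_sup_right
  have hK : ∀ n, (⨅ j, I j) ≤ I n := fun n => iInf_le I n
  refine ⟨Ideal.Quotient.mk _ L, ?_, ?_⟩
  · intro n
    rw [Ideal.Quotient.factor_mk, ← hs n, Ideal.Quotient.eq]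
    have h1 : L - s n = -(t n - L) - ∑ i ∈ Finset.range n, k i := by
      simp only [t]; ring
    rw [h1]
    refine Ideal.sub_mem _ (neg_mem (hm n (hL' n))) ?_
    exact Ideal.sum_mem _ (fun i _ => hK n (hk1 i))
  · intro r hr
    obtain ⟨a, rfl⟩ := Ideal.Quotient.mk_surjective r
    rw [Ideal.Quotient.eq, Ideal.mem_iInf]
    intro n
    have h1 := hr n
    rw [Ideal.Quotient.factor_mk, ← hs n, Ideal.Quotient.eq] at h1
    have h2 : a - L = (a - s n) + (t n - L) + ∑ i ∈ Finset.range n, k i := by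
      simp only [t]; ring
    rw [h2]
    refine Ideal.add_mem _ (Ideal.add_mem _ h1 (hm n (hL' n))) ?_
    exact Ideal.sum_mem _ (fun i _ => hK n (hk1 i))

end Fermat.Agent.S53.H841
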